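import Fermat.Agent.MAZ.Simple14.Flag

/-!
# MAZ (S15), brick F-SIMPLE: classification of the simple objects, consumer form

The statement consumed by the Selmer core (`SelCoh42/Simple.lean`, `sel_bound_of_simple`): a finite
abelian group `V` killed by the prime `r`, with an additive action of `Γ` without proper stable
subgroups, on which every `g` kills `(X - 1)(X - χ(g))`, is `0` or of order `r` with `Γ` acting
trivially or through `χ`.
-/

set_option autoImplicit false
set_option linter.style.haveILetI false

namespace Fermat.Agent.MAZ.Simple14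

variable {Γ : Type*} [Group Γ] {V : Type*} [AddCommGroup V] [DistribMulAction Γ V] [Finite V]
  {r : ℕ} [Fact r.Prime] (χ : Γ →* (ZMod r)ˣ)

/-- **F-SIMPLE, consumer form.** -/
theorem simple_of_two_char (hr : ∀ x : V, r • x = 0)
    (hsimple : ∀ W : AddSubgroup V, (∀ (g : Γ) (x : V), x ∈ W → g • x ∈ W) → W = ⊥ ∨ W = ⊤)
    (hpoly : ∀ (g : Γ) (x : V), g • g • x - (1 + ((χ g : (ZMod r)ˣ) : ZMod r).val) • g • x +
      ((χ g : (ZMod r)ˣ) : ZMod r).val • x = 0) :
    Subsingleton V ∨ (Nat.card V = r ∧ ∀ (g : Γ) (x : V), g • x = x) ∨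
      (Nat.card V = r ∧ ∀ (g : Γ) (x : V), g • x = ((χ g : (ZMod r)ˣ) : ZMod r).val • x) := by
  letI : Module (ZMod r) V := AddCommGroup.zmodModule hr
  have hval : ∀ (a : ZMod r) (x : V), a • x = a.val • x := fun a x => by
    conv_lhs => rw [← ZMod.natCast_zmod_val a]
    exact Nat.cast_smul_eq_nsmul (ZMod r) _ _
  rcases subsingleton_or_nontrivial V with hs | hnt
  · exact Or.inl hs
  right
  -- the quadratic relation
  have hq : QuadRel χ V := by
    intro g v
    have h := hpoly g v
    rw [hval, smul_sub, smul_comm g (((χ g : (ZMod r)ˣ) : ZMod r).val) v, sub_eq_sub_iff_add_eq_add]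
    rw [add_smul, one_smul] at h
    have h' : g • g • v + ((χ g : (ZMod r)ˣ) : ZMod r).val • v =
        g • v + ((χ g : (ZMod r)ˣ) : ZMod r).val • g • v := by
      rw [← sub_eq_zero, ← h]; abel
    exact h'
  -- simplicity for subspaces
  obtain ⟨w, hw0, hspan, hw⟩ := hq.simple (fun W hW => by
    rcases hsimple W.toAddSubgroup (fun g x hx => hW g x hx) with h | h
    · exact Or.inl (Submodule.toAddSubgroup_injective (h.trans Submodule.bot_toAddSubgroup.symm))
    · exact Or.inr (Submodule.toAddSubgroup_injective (h.trans Submodule.top_toAddSubgroup.symm)))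
  have hgen : ∀ x : V, ∃ a : ZMod r, a • w = x := fun x =>
    Submodule.mem_span_singleton.mp (hspan ▸ Submodule.mem_top (x := x))
  have hcard : Nat.card V = r := by
    have hinj : Function.Injective (fun a : ZMod r => a • w) := by
      intro a b hab
      by_contra hne
      have hc : a - b ≠ 0 := sub_ne_zero.mpr hne
      have h0 : (a - b) • w = 0 := by rw [sub_smul]; exact sub_eq_zero.mpr hab
      have : w = 0 := by
        rw [← one_smul (ZMod r) w, ← inv_mul_cancel₀ hc, mul_smul, h0, smul_zero]
      exact hw0 this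
    have hbij : Function.Bijective (fun a : ZMod r => a • w) := ⟨hinj, hgen⟩
    rw [← Nat.card_congr (Equiv.ofBijective _ hbij), Nat.card_zmod]
  rcases hw with h | h
  · left
    refine ⟨hcard, fun g x => ?_⟩
    obtain ⟨a, rfl⟩ := hgen x
    rw [smul_zmod_comm, h g]
  · right
    refine ⟨hcard, fun g x => ?_⟩
    obtain ⟨a, rfl⟩ := hgen x
    rw [smul_zmod_comm, h g, ← hval, smul_comm]

end Fermat.Agent.MAZ.Simple14
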