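import Mathlib

/-!
# MAZ (S15), brick F-SIMPLE: modules on which every `g` kills `(X - 1)(X - χ(g))`

`Γ` a group, `r` a prime, `V` a finite `𝔽_r`-vector space with an additive `Γ`-action, and
`χ : Γ →* 𝔽_rˣ` a character.  If `(g - 1)(g - χ(g)) = 0` on `V` for every `g` (for Galois modules:
Eichler–Shimura + Chebotarev) and `V ≠ 0`, then `V` contains a nonzero vector on which `Γ` acts
trivially or through `χ`.

Proof: `H = ker χ` acts through unipotent operators of order dividing `r`, so through an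
`r`-group, which has a nonzero fixed vector (counting).  On `V^H` the group acts through the cyclic
group `Γ / H ⊆ 𝔽_rˣ`; split according to the eigenvalues `1`, `χ(g₀)` of a generator `g₀`.
-/

set_option autoImplicit false

namespace Fermat.Agent.MAZ.Simple14

variable {Γ : Type*} [Group Γ] {r : ℕ} [Fact r.Prime] {V : Type*} [AddCommGroup V]
  [Module (ZMod r) V] [DistribMulAction Γ V]

/-- The action of `Γ` commutes with the scalars `𝔽_r` (which act through integers). -/
theorem smul_zmod_comm (g : Γ) (a : ZMod r) (v : V) : g • (a • v) = a • (g • v) := by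
  rw [← ZMod.natCast_zmod_val a, Nat.cast_smul_eq_nsmul, Nat.cast_smul_eq_nsmul, smul_comm]

theorem nsmul_prime_eq_zero (v : V) : r • v = 0 := by
  rw [← Nat.cast_smul_eq_nsmul (ZMod r), ZMod.natCast_self, zero_smul]

/-- `(g - 1)(g - χ(g)) = 0` on `V`, for all `g`. -/
def QuadRel (χ : Γ →* (ZMod r)ˣ) (V : Type*) [AddCommGroup V] [Module (ZMod r) V]
    [DistribMulAction Γ V] : Prop :=
  ∀ (g : Γ) (v : V), g • (g • v - ((χ g : (ZMod r)ˣ) : ZMod r) • v) =
    g • v - ((χ g : (ZMod r)ˣ) : ZMod r) • v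

variable {χ : Γ →* (ZMod r)ˣ}

/-- Elements of `ker χ` act unipotently. -/
theorem QuadRel.unipotent (hq : QuadRel χ V) {h : Γ} (hh : h ∈ χ.ker) (v : V) :
    h • (h • v - v) = h • v - v := by
  have := hq h v
  rw [MonoidHom.mem_ker.mp hh] at this
  simpa using this

theorem QuadRel.pow_smul (hq : QuadRel χ V) {h : Γ} (hh : h ∈ χ.ker) (k : ℕ) (v : V) :
    h ^ k • v = v + k • (h • v - v) := by
  induction k with
  | zero => simp
  | succ k ih =>
    rw [pow_succ', mul_smul, ih, smul_add, smul_comm h k, hq.unipotent hh, succ_nsmul]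
    abel

theorem QuadRel.pow_prime_smul (hq : QuadRel χ V) {h : Γ} (hh : h ∈ χ.ker) (v : V) :
    h ^ r • v = v := by
  rw [hq.pow_smul hh, nsmul_prime_eq_zero, add_zero]

/-- The cardinality of a nontrivial finite `𝔽_r`-vector space is divisible by `r`. -/
theorem prime_dvd_natCard [Finite V] [Nontrivial V] : r ∣ Nat.card V := by
  have hr : r.Prime := Fact.out
  obtain ⟨v, hv⟩ := exists_ne (0 : V)
  have h1 : addOrderOf v ∣ r := addOrderOf_dvd_of_nsmul_eq_zero (nsmul_prime_eq_zero v)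
  have h2 : addOrderOf v = r := by
    rcases (Nat.dvd_prime hr).mp h1 with h | h
    · exact absurd (AddMonoid.addOrderOf_eq_one_iff.mp h) hv
    · exact h
  rw [← h2]
  exact addOrderOf_dvd_natCard v

/-- **Kolchin for `ker χ`**: a nontrivial finite module satisfying the quadratic relations has a
nonzero vector fixed by `ker χ`. -/
theorem QuadRel.exists_ker_fixed (hq : QuadRel χ V) [Finite V] [Nontrivial V] :
    ∃ w : V, w ≠ 0 ∧ ∀ h ∈ χ.ker, h • w = w := by
  classical
  let P : Subgroup (Equiv.Perm V) := χ.ker.map (MulAction.toPermHom Γ V)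
  have hP : IsPGroup r P := by
    rintro ⟨σ, h, hh, rfl⟩
    refine ⟨1, Subtype.ext ?_⟩
    rw [pow_one, Subgroup.coe_pow, Subgroup.coe_one, ← map_pow]
    ext v
    exact hq.pow_prime_smul hh v
  have h0 : (0 : V) ∈ MulAction.fixedPoints P V := by
    rintro ⟨σ, h, hh, rfl⟩
    exact smul_zero h
  obtain ⟨w, hw, hne⟩ := hP.exists_fixed_point_of_prime_dvd_card_of_fixed_point V
    prime_dvd_natCard h0
  refine ⟨w, hne.symm, fun h hh => ?_⟩
  exact hw ⟨MulAction.toPermHom Γ V h, h, hh, rfl⟩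

/-- The subgroup of elements acting on `w` through `χ`. -/
def eigenSubgroup (χ : Γ →* (ZMod r)ˣ) (w : V) : Subgroup Γ where
  carrier := {g | g • w = ((χ g : (ZMod r)ˣ) : ZMod r) • w}
  one_mem' := by simp
  mul_mem' := by
    intro a b ha hb
    change a • w = ((χ a : (ZMod r)ˣ) : ZMod r) • w at ha
    change b • w = ((χ b : (ZMod r)ˣ) : ZMod r) • w at hb
    change (a * b) • w = ((χ (a * b) : (ZMod r)ˣ) : ZMod r) • w
    rw [mul_smul, hb, smul_zmod_comm, ha, map_mul, Units.val_mul, mul_smul, smul_comm]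
  inv_mem' := by
    intro a ha
    change a • w = ((χ a : (ZMod r)ˣ) : ZMod r) • w at ha
    change a⁻¹ • w = ((χ a⁻¹ : (ZMod r)ˣ) : ZMod r) • w
    have h1 : w = ((χ a : (ZMod r)ˣ) : ZMod r) • (a⁻¹ • w) := by
      rw [← smul_zmod_comm, ← ha, inv_smul_smul]
    rw [map_inv]
    conv_rhs => rw [h1]
    rw [smul_smul, ← Units.val_mul, inv_mul_cancel, Units.val_one, one_smul]

theorem mem_eigenSubgroup {w : V} {g : Γ} :
    g ∈ eigenSubgroup χ w ↔ g • w = ((χ g : (ZMod r)ˣ) : ZMod r) • w := Iff.rfl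

/-- Every element of `Γ` is a power of a fixed `g₀` times an element of `ker χ`. -/
theorem exists_generator_mod_ker (χ : Γ →* (ZMod r)ˣ) :
    ∃ g₀ : Γ, ∀ S : Subgroup Γ, g₀ ∈ S → χ.ker ≤ S → S = ⊤ := by
  obtain ⟨⟨c, g₀, rfl⟩, hgen⟩ := IsCyclic.exists_generator (α := χ.range)
  refine ⟨g₀, fun S h0 hker => ?_⟩
  rw [eq_top_iff]
  intro g _
  obtain ⟨k, hk⟩ := Subgroup.mem_zpowers_iff.mp (hgen ⟨χ g, g, rfl⟩)
  have hk' : χ g₀ ^ k = χ g := by
    have := congrArg Subtype.val hk
    simpa using this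
  have hmem : g₀ ^ (-k) * g ∈ χ.ker := by
    rw [MonoidHom.mem_ker, map_mul, map_zpow, zpow_neg, hk', inv_mul_cancel]
  have : g = g₀ ^ k * (g₀ ^ (-k) * g) := by
    rw [← mul_assoc, ← zpow_add, add_neg_cancel, zpow_zero, one_mul]
  rw [this]
  exact S.mul_mem (S.zpow_mem h0 k) (hker hmem)

/-- **F-SIMPLE, eigenvector form.** A nontrivial finite `𝔽_r[Γ]`-module on which every `g` kills
`(X - 1)(X - χ(g))` contains a nonzero vector on which `Γ` acts trivially or through `χ`. -/
theorem QuadRel.exists_eigenvector (hq : QuadRel χ V) [Finite V] [Nontrivial V] :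
    ∃ w : V, w ≠ 0 ∧ ((∀ g : Γ, g • w = w) ∨
      ∀ g : Γ, g • w = ((χ g : (ZMod r)ˣ) : ZMod r) • w) := by
  classical
  obtain ⟨g₀, hg₀⟩ := exists_generator_mod_ker χ
  -- the vectors fixed by `ker χ` are stable under `Γ`
  have hstable : ∀ (g : Γ) (w : V), (∀ h ∈ χ.ker, h • w = w) → ∀ h ∈ χ.ker, h • (g • w) = g • w := by
    intro g w hw h hh
    have hconj : g⁻¹ * h * g ∈ χ.ker := by
      rw [MonoidHom.mem_ker, map_mul, map_mul, MonoidHom.mem_ker.mp hh, mul_one, map_inv,
        inv_mul_cancel]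
    have := hw _ hconj
    calc h • (g • w) = g • ((g⁻¹ * h * g) • w) := by
          rw [← mul_smul, ← mul_smul, mul_assoc, mul_inv_cancel_left]
      _ = g • w := by rw [this]
  by_cases hex : ∃ w : V, w ≠ 0 ∧ (∀ h ∈ χ.ker, h • w = w) ∧ g₀ • w = w
  · -- a vector fixed by `ker χ` and by `g₀` is fixed by `Γ`
    obtain ⟨w, hw0, hwker, hwg⟩ := hex
    refine ⟨w, hw0, Or.inl fun g => ?_⟩
    have htop := hg₀ (MulAction.stabilizer Γ w) (MulAction.mem_stabilizer_iff.mpr hwg)
      (fun h hh => MulAction.mem_stabilizer_iff.mpr (hwker h hh))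
    have : g ∈ MulAction.stabilizer Γ w := htop ▸ Subgroup.mem_top g
    exact MulAction.mem_stabilizer_iff.mp this
  · -- otherwise `g₀` acts through `χ g₀` on the vectors fixed by `ker χ`
    obtain ⟨w, hw0, hwker⟩ := hq.exists_ker_fixed
    refine ⟨w, hw0, Or.inr fun g => ?_⟩
    set c : ZMod r := ((χ g₀ : (ZMod r)ˣ) : ZMod r) with hc
    have hu : g₀ • w - c • w = 0 := by
      by_contra hne
      refine hex ⟨g₀ • w - c • w, hne, fun h hh => ?_, hq g₀ w⟩
      rw [smul_sub, hstable g₀ w hwker h hh, smul_zmod_comm, hwker h hh]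
    have hg₀w : g₀ ∈ eigenSubgroup χ w := mem_eigenSubgroup.mpr (sub_eq_zero.mp hu)
    have htop := hg₀ (eigenSubgroup χ w) hg₀w (fun h hh => by
      rw [mem_eigenSubgroup, hwker h hh, MonoidHom.mem_ker.mp hh, Units.val_one, one_smul])
    have : g ∈ eigenSubgroup χ w := htop ▸ Subgroup.mem_top g
    exact mem_eigenSubgroup.mp this

end Fermat.Agent.MAZ.Simple14
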