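import Fermat.Agent.MAZ.Simple14.Eigen

/-!
# MAZ (S15), brick F-SIMPLE: Jordan–Hölder flags with factors `1` and `χ`

A finite `𝔽_r[Γ]`-module on which every `g` kills `(X - 1)(X - χ(g))` has a full flag of
`Γ`-stable subspaces whose successive quotients are lines on which `Γ` acts trivially or
through `χ`; simple such modules are lines.
-/

set_option autoImplicit false
set_option linter.style.haveILetI false

namespace Fermat.Agent.MAZ.Simple14

variable {Γ : Type*} [Group Γ] {r : ℕ} [Fact r.Prime] {V : Type*} [AddCommGroup V]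
  [Module (ZMod r) V] [DistribMulAction Γ V]

/-- A `Γ`-stable subspace. -/
abbrev IsStable (Γ : Type*) [Group Γ] [DistribMulAction Γ V] (W : Submodule (ZMod r) V) : Prop :=
  ∀ (g : Γ), ∀ w ∈ W, g • w ∈ W

/-- The action of `g` as an `𝔽_r`-linear map. -/
def actLin (g : Γ) : V →ₗ[ZMod r] V where
  toFun v := g • v
  map_add' := smul_add g
  map_smul' a v := smul_zmod_comm g a v

@[simp] theorem actLin_apply (g : Γ) (v : V) : actLin (r := r) g v = g • v := rfl

theorem IsStable.le_comap {W : Submodule (ZMod r) V} (hW : IsStable Γ W) (g : Γ) :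
    W ≤ W.comap (actLin g) := fun w hw => by
  rw [Submodule.mem_comap, actLin_apply]
  exact hW g w hw

/-- The induced action on the quotient by a stable subspace. -/
@[reducible] def quotAction (W : Submodule (ZMod r) V) (hW : IsStable Γ W) : DistribMulAction Γ (V ⧸ W) where
  smul g := W.mapQ W (actLin g) (hW.le_comap g)
  one_smul := by
    intro x
    induction x using Submodule.Quotient.induction_on with
    | _ v =>
      change W.mapQ W (actLin (1 : Γ)) _ (Submodule.Quotient.mk v) = _
      rw [Submodule.mapQ_apply, actLin_apply, one_smul]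
  mul_smul := by
    intro g h x
    induction x using Submodule.Quotient.induction_on with
    | _ v =>
      change W.mapQ W (actLin (g * h)) _ (Submodule.Quotient.mk v) =
        W.mapQ W (actLin g) _ (W.mapQ W (actLin h) _ (Submodule.Quotient.mk v))
      rw [Submodule.mapQ_apply, Submodule.mapQ_apply, Submodule.mapQ_apply, actLin_apply,
        actLin_apply, actLin_apply, mul_smul]
  smul_zero g := map_zero _
  smul_add g := map_add _

theorem quotAction_smul_mk (W : Submodule (ZMod r) V) (hW : IsStable Γ W) (g : Γ) (v : V) :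
    letI := quotAction W hW
    g • (Submodule.Quotient.mk v : V ⧸ W) = Submodule.Quotient.mk (g • v) := by
  letI := quotAction W hW
  change W.mapQ W (actLin g) _ (Submodule.Quotient.mk v) = _
  rw [Submodule.mapQ_apply, actLin_apply]

variable {χ : Γ →* (ZMod r)ˣ}

theorem QuadRel.quot (hq : QuadRel χ V) (W : Submodule (ZMod r) V) (hW : IsStable Γ W) :
    letI := quotAction W hW
    QuadRel χ (V ⧸ W) := by
  letI := quotAction W hW
  intro g x
  induction x using Submodule.Quotient.induction_on with
  | _ v =>
    rw [quotAction_smul_mk, ← Submodule.Quotient.mk_smul, ← Submodule.Quotient.mk_sub,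
      quotAction_smul_mk, hq g v]

/-- **Relative eigenvector.** Over a proper stable subspace there is a vector on which `Γ` acts,
modulo the subspace, trivially or through `χ`. -/
theorem QuadRel.exists_eigenvector_mod (hq : QuadRel χ V) [Finite V] (W : Submodule (ZMod r) V)
    (hW : IsStable Γ W) (hne : W ≠ ⊤) :
    ∃ v : V, v ∉ W ∧ ((∀ g : Γ, g • v - v ∈ W) ∨
      ∀ g : Γ, g • v - ((χ g : (ZMod r)ˣ) : ZMod r) • v ∈ W) := by
  letI := quotAction W hW
  haveI : Nontrivial (V ⧸ W) := Submodule.Quotient.nontrivial_iff.mpr hne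
  haveI : Finite (V ⧸ W) := Finite.of_surjective _ (Submodule.Quotient.mk_surjective W)
  obtain ⟨x, hx0, hx⟩ := (hq.quot W hW).exists_eigenvector
  induction x using Submodule.Quotient.induction_on with
  | _ v =>
    refine ⟨v, fun hv => hx0 ((Submodule.Quotient.mk_eq_zero W).mpr hv), ?_⟩
    rcases hx with h | h
    · left
      intro g
      have := h g
      rw [quotAction_smul_mk, ← sub_eq_zero, ← Submodule.Quotient.mk_sub,
        Submodule.Quotient.mk_eq_zero] at this
      exact this
    · right
      intro g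
      have := h g
      rw [quotAction_smul_mk, ← Submodule.Quotient.mk_smul, ← sub_eq_zero,
        ← Submodule.Quotient.mk_sub, Submodule.Quotient.mk_eq_zero] at this
      exact this

/-- `Chain χ a n W`: the stable subspace `W` is obtained from `0` in `n` steps, each adding a vector
on which `Γ` acts, modulo the previous subspace, trivially (`a` counts these steps) or through
`χ`. -/
inductive Chain (χ : Γ →* (ZMod r)ˣ) : ℕ → ℕ → Submodule (ZMod r) V → Prop
  | bot : Chain χ 0 0 ⊥
  | triv {a n : ℕ} {W : Submodule (ZMod r) V} (h : Chain χ a n W) (v : V) (hv : v ∉ W)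
      (hg : ∀ g : Γ, g • v - v ∈ W) : Chain χ (a + 1) (n + 1) (W ⊔ Submodule.span (ZMod r) {v})
  | cyc {a n : ℕ} {W : Submodule (ZMod r) V} (h : Chain χ a n W) (v : V) (hv : v ∉ W)
      (hg : ∀ g : Γ, g • v - ((χ g : (ZMod r)ˣ) : ZMod r) • v ∈ W) :
      Chain χ a (n + 1) (W ⊔ Submodule.span (ZMod r) {v})

/-- Adding to a stable subspace a vector which is an eigenvector modulo it gives a stable
subspace. -/
theorem isStable_sup_span {W : Submodule (ZMod r) V} (hW : IsStable Γ W) (v : V)
    (c : Γ → ZMod r) (hg : ∀ g : Γ, g • v - c g • v ∈ W) :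
    IsStable Γ (W ⊔ Submodule.span (ZMod r) {v}) := by
  intro g x hx
  obtain ⟨w, hw, y, hy, rfl⟩ := Submodule.mem_sup.mp hx
  obtain ⟨a, rfl⟩ := Submodule.mem_span_singleton.mp hy
  rw [smul_add, smul_zmod_comm]
  have h1 : a • g • v = a • (g • v - c g • v) + (a * c g) • v := by
    rw [smul_sub, mul_smul]; abel
  rw [h1, ← add_assoc]
  refine Submodule.add_mem _ (Submodule.mem_sup_left ?_)
    (Submodule.mem_sup_right (Submodule.smul_mem _ _ (Submodule.mem_span_singleton_self v)))
  exact W.add_mem (hW g w hw) (W.smul_mem a (hg g))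

theorem Chain.isStable {a n : ℕ} {W : Submodule (ZMod r) V} (h : Chain χ a n W) :
    IsStable Γ W := by
  induction h with
  | bot =>
    intro g w hw
    rw [Submodule.mem_bot] at hw ⊢
    rw [hw, smul_zero]
  | triv _ v _ hg ih =>
    exact isStable_sup_span ih v (fun _ => 1) (fun g => by simpa using hg g)
  | cyc _ v _ hg ih =>
    exact isStable_sup_span ih v (fun g => ((χ g : (ZMod r)ˣ) : ZMod r)) hg

theorem Chain.le {a n : ℕ} {W : Submodule (ZMod r) V} (h : Chain χ a n W) : a ≤ n := by
  induction h with
  | bot => exact le_rfl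
  | triv _ _ _ _ ih => exact Nat.succ_le_succ ih
  | cyc _ _ _ _ ih => exact Nat.le_succ_of_le ih

/-- **F-SIMPLE, flag form.** A finite `𝔽_r[Γ]`-module on which every `g` kills
`(X - 1)(X - χ(g))` has a full flag with factors `1` or `χ`. -/
theorem QuadRel.exists_chain (hq : QuadRel χ V) [Finite V] :
    ∃ a n : ℕ, Chain χ a n (⊤ : Submodule (ZMod r) V) := by
  haveI : WellFoundedGT (Submodule (ZMod r) V) := isNoetherian_iff'.mp inferInstance
  suffices H : ∀ W : Submodule (ZMod r) V, ∀ a n : ℕ, Chain χ a n W →
      ∃ a' n' : ℕ, Chain χ a' n' (⊤ : Submodule (ZMod r) V) from H ⊥ 0 0 Chain.bot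
  intro W
  induction W using WellFoundedGT.induction with
  | ind W ih =>
    intro a n hW
    by_cases htop : W = ⊤
    · exact ⟨a, n, htop ▸ hW⟩
    · obtain ⟨v, hv, h | h⟩ := hq.exists_eigenvector_mod W hW.isStable htop
      · have hlt : W < W ⊔ Submodule.span (ZMod r) {v} :=
          lt_of_le_of_ne le_sup_left fun heq => hv (heq ▸ Submodule.mem_sup_right
            (Submodule.mem_span_singleton_self v))
        exact ih _ hlt _ _ (Chain.triv hW v hv h)
      · have hlt : W < W ⊔ Submodule.span (ZMod r) {v} :=
          lt_of_le_of_ne le_sup_left fun heq => hv (heq ▸ Submodule.mem_sup_right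
            (Submodule.mem_span_singleton_self v))
        exact ih _ hlt _ _ (Chain.cyc hW v hv h)

/-- **F-SIMPLE, simple modules.** A simple module (no stable subspaces besides `0` and `V`) on
which every `g` kills `(X - 1)(X - χ(g))` is a line on which `Γ` acts trivially or through `χ`. -/
theorem QuadRel.simple (hq : QuadRel χ V) [Finite V] [Nontrivial V]
    (hsimple : ∀ W : Submodule (ZMod r) V, IsStable Γ W → W = ⊥ ∨ W = ⊤) :
    ∃ w : V, w ≠ 0 ∧ Submodule.span (ZMod r) {w} = ⊤ ∧ ((∀ g : Γ, g • w = w) ∨
      ∀ g : Γ, g • w = ((χ g : (ZMod r)ˣ) : ZMod r) • w) := by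
  obtain ⟨w, hw0, hw⟩ := hq.exists_eigenvector
  refine ⟨w, hw0, ?_, hw⟩
  have hst : IsStable Γ (Submodule.span (ZMod r) {w}) := by
    intro g x hx
    obtain ⟨a, rfl⟩ := Submodule.mem_span_singleton.mp hx
    rw [smul_zmod_comm]
    rcases hw with h | h
    · rw [h g]; exact Submodule.smul_mem _ _ (Submodule.mem_span_singleton_self w)
    · rw [h g, smul_smul]; exact Submodule.smul_mem _ _ (Submodule.mem_span_singleton_self w)
  rcases hsimple _ hst with h | h
  · exact absurd ((Submodule.span_singleton_eq_bot).mp h) hw0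
  · exact h

/-- If `χ` is trivial (e.g. `r = 2`) all steps of a chain are trivial steps. -/
theorem Chain.all_triv (hχ : ∀ g : Γ, χ g = 1) {a n : ℕ} {W : Submodule (ZMod r) V}
    (h : Chain χ a n W) : Chain χ n n W := by
  induction h with
  | bot => exact Chain.bot
  | triv _ v hv hg ih => exact Chain.triv ih v hv hg
  | cyc _ v hv hg ih =>
    refine Chain.triv ih v hv fun g => ?_
    have := hg g
    rwa [hχ g, Units.val_one, one_smul] at this

/-- For `r = 2` every character is trivial. -/
theorem char_eq_one_of_two (χ : Γ →* (ZMod 2)ˣ) (g : Γ) : χ g = 1 :=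
  Subsingleton.elim _ _

/-- The number of steps of a chain is the dimension. -/
theorem Chain.finrank_eq [Finite V] {a n : ℕ} {W : Submodule (ZMod r) V} (h : Chain χ a n W) :
    Module.finrank (ZMod r) W = n := by
  induction h with
  | bot => exact finrank_bot _ _
  | @triv a n W _ v hv _ ih =>
    have hv0 : v ≠ 0 := fun h0 => hv (h0 ▸ W.zero_mem)
    have hinf : W ⊓ Submodule.span (ZMod r) {v} = ⊥ := by
      rw [eq_bot_iff]
      rintro x ⟨hxW, hxv⟩
      obtain ⟨c, rfl⟩ := Submodule.mem_span_singleton.mp hxv
      by_cases hc : c = 0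
      · rw [hc, zero_smul]; exact Submodule.zero_mem _
      · exact absurd ((W.smul_mem_iff hc).mp hxW) hv
    have := Submodule.finrank_sup_add_finrank_inf_eq W (Submodule.span (ZMod r) {v})
    rw [hinf, finrank_bot, add_zero, ih, finrank_span_singleton hv0] at this
    exact this
  | @cyc a n W _ v hv _ ih =>
    have hv0 : v ≠ 0 := fun h0 => hv (h0 ▸ W.zero_mem)
    have hinf : W ⊓ Submodule.span (ZMod r) {v} = ⊥ := by
      rw [eq_bot_iff]
      rintro x ⟨hxW, hxv⟩
      obtain ⟨c, rfl⟩ := Submodule.mem_span_singleton.mp hxv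
      by_cases hc : c = 0
      · rw [hc, zero_smul]; exact Submodule.zero_mem _
      · exact absurd ((W.smul_mem_iff hc).mp hxW) hv
    have := Submodule.finrank_sup_add_finrank_inf_eq W (Submodule.span (ZMod r) {v})
    rw [hinf, finrank_bot, add_zero, ih, finrank_span_singleton hv0] at this
    exact this

/-- The length of a full chain is `log_r |V|`. -/
theorem Chain.natCard_eq [Finite V] {a n : ℕ} (h : Chain χ a n (⊤ : Submodule (ZMod r) V)) :
    Nat.card V = r ^ n := by
  have h1 := h.finrank_eq
  rw [finrank_top] at h1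
  rw [← h1, Module.natCard_eq_pow_finrank (K := ZMod r), Nat.card_zmod]

end Fermat.Agent.MAZ.Simple14
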